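import Fermat.Agent.GalCommon.Basic

/-!
# Tame inertia at finite level

`exists_inertia_generator`: if a homomorphism factoring through a number field maps inertia at
`q` onto an `l`-group, `l ≠ q`, that image is cyclic and Frobenius acts on it by the `q`-th power.
The proof attaches to a decomposition element the residue `theta` of `σ x / x`, shows that
elements with trivial residues move `x` with `q`-power period, and uses one generator of the
finitely many values involved (`exists_common_generator`).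
-/

set_option autoImplicit false
set_option linter.style.haveILetI false

noncomputable section

open scoped Pointwise

namespace FLTAgent.Mazur.Tame

local notation "Qb" => AlgebraicClosure ℚ
local notation "Γ" => (AlgebraicClosure ℚ ≃ₐ[ℚ] AlgebraicClosure ℚ)

open GalCommon

variable {A : ValuationSubring (AlgebraicClosure ℚ)} {σ : Γ}

theorem valuation_map_le_iff (hσ : σ ∈ A.decompositionSubgroup ℚ) {x y : Qb} (hy : y ≠ 0) :
    A.valuation (σ x) ≤ A.valuation (σ y) ↔ A.valuation x ≤ A.valuation y := by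
  have h : ∀ a b : Qb, b ≠ 0 → (A.valuation a ≤ A.valuation b ↔ a / b ∈ A) := fun a b hb => by
    rw [← A.valuation_le_one_iff, map_div₀, div_le_one₀ (zero_lt_iff.mpr
      ((Valuation.ne_zero_iff _).mpr hb))]
  rw [h _ _ ((map_ne_zero σ).mpr hy), h _ _ hy, ← map_div₀,
    map_mem_iff_of_mem_decomposition hσ]

theorem exists_pow_apply_eq (σ : Γ) (x : Qb) : ∃ n, 0 < n ∧ (σ ^ n) x = x := by
  classical
  have halg : IsAlgebraic ℚ x := (AlgebraicClosure.isAlgebraic ℚ).isAlgebraic x
  have hmem : ∀ n : ℕ, (σ ^ n) x ∈ (minpoly ℚ x).rootSet Qb := fun n => by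
    rw [Polynomial.mem_rootSet]
    refine ⟨minpoly.ne_zero halg.isIntegral, ?_⟩
    exact (Polynomial.aeval_algHom_apply (σ ^ n).toAlgHom x (minpoly ℚ x)).trans (by simp)
  obtain ⟨a, b, hab, he⟩ := Finite.exists_ne_map_eq_of_infinite
    (fun n : ℕ => (⟨_, hmem n⟩ : (minpoly ℚ x).rootSet Qb))
  rw [Subtype.mk.injEq] at he
  wlog hlt : a < b generalizing a b
  · exact this b a (Ne.symm hab) he.symm (lt_of_le_of_ne (not_lt.mp hlt) (Ne.symm hab))
  refine ⟨b - a, by omega, (σ ^ a).injective ?_⟩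
  rw [← AlgEquiv.mul_apply, ← pow_add, Nat.add_sub_cancel' hlt.le, he]

/-- Decomposition elements preserve the valuation. -/
theorem valuation_map (hσ : σ ∈ A.decompositionSubgroup ℚ) (x : Qb) :
    A.valuation (σ x) = A.valuation x := by
  rcases eq_or_ne x 0 with rfl | hx
  · simp
  obtain ⟨n, hn, hfix⟩ := exists_pow_apply_eq σ x
  have hne : ∀ m : ℕ, (σ ^ m) x ≠ 0 := fun m => (map_ne_zero _).mpr hx
  have happ : ∀ m : ℕ, (σ ^ (m + 1)) x = σ ((σ ^ m) x) := fun m => by
    rw [pow_succ', AlgEquiv.mul_apply]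
  rcases le_total (A.valuation (σ x)) (A.valuation x) with h | h
  · refine le_antisymm h ?_
    have hstep : ∀ m : ℕ, A.valuation ((σ ^ (m + 1)) x) ≤ A.valuation ((σ ^ m) x) := by
      intro m
      induction m with
      | zero => simpa using h
      | succ m ih =>
        rw [happ (m + 1)]
        conv_rhs => rw [happ m]
        exact (valuation_map_le_iff hσ (hne m)).mpr ih
    have hdec : ∀ m : ℕ, 0 < m → A.valuation ((σ ^ m) x) ≤ A.valuation (σ x) := by
      intro m hm
      induction m, hm using Nat.le_induction with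
      | base => simp
      | succ m _ ih => exact (hstep m).trans ih
    calc A.valuation x = A.valuation ((σ ^ n) x) := by rw [hfix]
      _ ≤ _ := hdec n hn
  · refine le_antisymm ?_ h
    have hstep : ∀ m : ℕ, A.valuation ((σ ^ m) x) ≤ A.valuation ((σ ^ (m + 1)) x) := by
      intro m
      induction m with
      | zero => simpa using h
      | succ m ih =>
        rw [happ (m + 1)]
        conv_lhs => rw [happ m]
        exact (valuation_map_le_iff hσ (hne (m + 1))).mpr ih
    have hinc : ∀ m : ℕ, 0 < m → A.valuation (σ x) ≤ A.valuation ((σ ^ m) x) := by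
      intro m hm
      induction m, hm using Nat.le_induction with
      | base => simp
      | succ m _ ih => exact ih.trans (hstep m)
    calc A.valuation (σ x) ≤ A.valuation ((σ ^ n) x) := hinc n hn
      _ = A.valuation x := by rw [hfix]

theorem map_div_self_mem (hσ : σ ∈ A.decompositionSubgroup ℚ) (x : Qb) : σ x / x ∈ A := by
  rw [← A.valuation_le_one_iff, map_div₀, valuation_map hσ]
  exact div_self_le_one _

/-- The residue of `σ x / x`. -/
def theta (hσ : σ ∈ A.decompositionSubgroup ℚ) (x : Qb) : IsLocalRing.ResidueField A :=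
  IsLocalRing.residue A ⟨σ x / x, map_div_self_mem hσ x⟩

theorem theta_eq_one_iff (hσ : σ ∈ A.decompositionSubgroup ℚ) {x : Qb} (hx : x ≠ 0) :
    theta hσ x = 1 ↔ A.valuation (σ x - x) < A.valuation x := by
  rw [theta, ← sub_eq_zero, ← map_one (IsLocalRing.residue A), ← map_sub,
    IsLocalRing.residue_eq_zero_iff, A.valuation_lt_one_iff]
  push_cast
  rw [div_sub_one hx, map_div₀, div_lt_one₀ (zero_lt_iff.mpr ((Valuation.ne_zero_iff _).mpr hx))]

theorem theta_mul_arg (hσ : σ ∈ A.decompositionSubgroup ℚ) (x y : Qb) :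
    theta hσ (x * y) = theta hσ x * theta hσ y := by
  rw [theta, theta, theta, ← map_mul]
  congr 1
  ext
  push_cast
  rw [map_mul, mul_div_mul_comm]

theorem theta_unit_of_inertia (hσI : σ ∈ A.inertiaSubgroupIn ℚ) {x : Qb}
    (hx : A.valuation x = 1) :
    theta (inertiaSubgroupIn_le_decomposition hσI) x = 1 := by
  have hx0 : x ≠ 0 := fun h => by simp [h] at hx
  rw [theta_eq_one_iff _ hx0, hx]
  exact (mem_inertiaSubgroupIn_iff.mp hσI).2 x ((A.valuation_le_one_iff x).mp hx.le)

theorem theta_ne_zero (hσ : σ ∈ A.decompositionSubgroup ℚ) {x : Qb} (hx : x ≠ 0) :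
    theta hσ x ≠ 0 := by
  rw [theta, ne_eq, IsLocalRing.residue_eq_zero_iff, A.valuation_lt_one_iff]
  push_cast
  rw [map_div₀, valuation_map hσ, div_self ((Valuation.ne_zero_iff _).mpr hx)]
  exact lt_irrefl _

theorem theta_eq_of_valuation_eq (hσI : σ ∈ A.inertiaSubgroupIn ℚ) {x y : Qb} (hy : y ≠ 0)
    (h : A.valuation x = A.valuation y) :
    theta (inertiaSubgroupIn_le_decomposition hσI) x
      = theta (inertiaSubgroupIn_le_decomposition hσI) y := by
  conv_lhs => rw [← div_mul_cancel₀ x hy]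
  rw [theta_mul_arg, theta_unit_of_inertia hσI (by
    rw [map_div₀, h, div_self ((Valuation.ne_zero_iff _).mpr hy)]), one_mul]

theorem theta_zpow (hσ : σ ∈ A.decompositionSubgroup ℚ) {x : Qb} (hx : x ≠ 0) (m : ℤ) :
    theta hσ (x ^ m) = theta hσ x ^ m := by
  have hone : theta hσ 1 = 1 := by
    rw [theta_eq_one_iff hσ one_ne_zero]; simp
  induction m with
  | zero => simpa using hone
  | succ n ih => rw [zpow_add_one₀ hx, theta_mul_arg, ih, zpow_add_one₀ (theta_ne_zero hσ hx)]
  | pred n ih =>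
    apply mul_right_cancel₀ (theta_ne_zero hσ hx)
    rw [← theta_mul_arg, ← zpow_add_one₀ hx, ← zpow_add_one₀ (theta_ne_zero hσ hx)]
    simpa using ih

/-- Elements of the wild inertia move `x` with `q`-power period. -/
theorem exists_pow_prime_apply_eq {q : ℕ} (hq : q.Prime) (hA : A.LiesOverPrime q)
    (hσ : σ ∈ A.decompositionSubgroup ℚ) (S : IntermediateField ℚ Qb)
    (hS : ∀ y ∈ S, σ y ∈ S) (hθ : ∀ y ∈ S, y ≠ 0 → A.valuation (σ y - y) < A.valuation y)
    {x : Qb} (hx : x ∈ S) : ∃ k : ℕ, (σ ^ q ^ k) x = x := by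
  have hpow : ∀ (m : ℕ) (y : Qb), y ∈ S → (σ ^ m) y ∈ S ∧
      (y ≠ 0 → A.valuation ((σ ^ m) y - y) < A.valuation y) := by
    intro m
    induction m with
    | zero => exact fun y hy => ⟨hy, fun hy0 => by
        simpa using zero_lt_iff.mpr ((Valuation.ne_zero_iff _).mpr hy0)⟩
    | succ m ih =>
      intro y hy
      obtain ⟨h1, h2⟩ := ih (σ y) (hS y hy)
      rw [pow_succ, AlgEquiv.mul_apply]
      refine ⟨h1, fun hy0 => ?_⟩
      rw [show (σ ^ m) (σ y) - y = ((σ ^ m) (σ y) - σ y) + (σ y - y) by ring]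
      refine (Valuation.map_add _ _ _).trans_lt (max_lt ?_ (hθ y hy hy0))
      rw [← valuation_map hσ y]
      exact h2 ((map_ne_zero σ).mpr hy0)
  obtain ⟨n, hn, hfix⟩ := exists_pow_apply_eq σ x
  obtain ⟨k, m, hm, rfl⟩ := Nat.exists_eq_pow_mul_and_not_dvd hn.ne' q hq.ne_one
  refine ⟨k, ?_⟩
  set τ := σ ^ q ^ k
  by_contra hne
  set y := τ x - x with hy
  have hy0 : y ≠ 0 := sub_ne_zero.mpr hne
  have hτS : ∀ i : ℕ, ∀ z ∈ S, (τ ^ i) z ∈ S := fun i z hz => by
    rw [← pow_mul]; exact (hpow _ z hz).1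
  have hyS : y ∈ S := S.sub_mem (by simpa using hτS 1 x hx) hx
  have hτ : ∀ z ∈ S, z ≠ 0 → A.valuation (τ z - z) < A.valuation z := fun z hz => (hpow _ z hz).2
  have hlin : ∀ i : ℕ, A.valuation ((τ ^ i) x - x - (i : Qb) * y) < A.valuation y := by
    intro i
    induction i with
    | zero => simpa using zero_lt_iff.mpr ((Valuation.ne_zero_iff _).mpr hy0)
    | succ i ih =>
      set w := (τ ^ i) x - x with hw
      have hwS : w ∈ S := S.sub_mem (hτS i x hx) hx
      have hwle : A.valuation w ≤ A.valuation y := by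
        rw [show w = (w - (i : Qb) * y) + (i : Qb) * y by ring]
        refine (Valuation.map_add _ _ _).trans (max_le ih.le ?_)
        rw [map_mul]
        refine mul_le_of_le_one_left zero_le ((A.valuation_le_one_iff _).mpr ?_)
        exact natCast_mem A i
      rw [show (τ ^ (i + 1)) x - x - ((i + 1 : ℕ) : Qb) * y
          = (τ w - w) + (w - (i : Qb) * y) by
        rw [hw, hy, pow_succ', AlgEquiv.mul_apply, map_sub]; push_cast; ring]
      refine (Valuation.map_add _ _ _).trans_lt (max_lt ?_ ih)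
      rcases eq_or_ne w 0 with hw0 | hw0
      · simpa [hw0] using zero_lt_iff.mpr ((Valuation.ne_zero_iff _).mpr hy0)
      · exact (hτ w hwS hw0).trans_le hwle
  have h := hlin m
  rw [← pow_mul, hfix, sub_self, zero_sub, Valuation.map_neg, map_mul] at h
  have h1 : A.valuation (m : Qb) = 1 := by
    refine le_antisymm ((A.valuation_le_one_iff _).mpr (natCast_mem A m)) (not_lt.mp fun hlt => ?_)
    exact hm ((natCast_mem_nonunits_iff hq hA m).mp hlt)
  rw [h1, one_mul] at h
  exact lt_irrefl _ h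

theorem eq_of_pow_eq {x y : A.ValueGroup} {E : ℕ} (hE : 0 < E) (h : x ^ E = y ^ E) : x = y :=
  (pow_left_inj₀ zero_le zero_le hE.ne').mp h

/-- Every value has a positive power in the value group of `ℚ`. -/
theorem exists_valuation_pow_eq {q : ℕ} (hq : q.Prime) (hA : A.LiesOverPrime q) {x : Qb}
    (hx : x ≠ 0) :
    ∃ (e : ℕ) (f : ℤ), 0 < e ∧ A.valuation x ^ e = A.valuation (q : Qb) ^ f := by
  classical
  haveI : Fact q.Prime := ⟨hq⟩
  have hnat : ∀ n : ℕ, n ≠ 0 → ∃ f : ℤ, A.valuation (n : Qb) = A.valuation (q : Qb) ^ f := by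
    intro n hn
    obtain ⟨e, m, hm, rfl⟩ := Nat.exists_eq_pow_mul_and_not_dvd hn q hq.ne_one
    refine ⟨e, ?_⟩
    have h1 : A.valuation (m : Qb) = 1 :=
      le_antisymm ((A.valuation_le_one_iff _).mpr (natCast_mem A m))
        (not_lt.mp fun hlt => hm ((natCast_mem_nonunits_iff hq hA m).mp hlt))
    rw [zpow_natCast, Nat.cast_mul, Nat.cast_pow, map_mul, map_pow, h1, mul_one]
  have hq0 : A.valuation (q : Qb) ≠ 0 :=
    (Valuation.ne_zero_iff _).mpr (Nat.cast_ne_zero.mpr hq.ne_zero)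
  have hrat : ∀ c : ℚ, c ≠ 0 →
      ∃ f : ℤ, A.valuation (algebraMap ℚ Qb c) = A.valuation (q : Qb) ^ f := by
    intro c hc
    obtain ⟨f, hf⟩ := hnat c.num.natAbs (Int.natAbs_ne_zero.mpr (Rat.num_ne_zero.mpr hc))
    obtain ⟨g, hg⟩ := hnat c.den c.den_ne_zero
    refine ⟨f - g, ?_⟩
    have hnum : A.valuation ((c.num : ℤ) : Qb) = A.valuation ((c.num.natAbs : ℕ) : Qb) := by
      rcases Int.natAbs_eq c.num with h | h <;> conv_lhs => rw [h]
      · simp
      · simp [Valuation.map_neg]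
    conv_lhs => rw [← Rat.num_div_den c]
    rw [map_div₀, map_intCast, map_natCast, map_div₀, hnum, hf, hg, zpow_sub₀ hq0]
  have halg : IsAlgebraic ℚ x := (AlgebraicClosure.isAlgebraic ℚ).isAlgebraic x
  set P := minpoly ℚ x
  have hP : P ≠ 0 := minpoly.ne_zero halg.isIntegral
  set term : ℕ → Qb := fun i => algebraMap ℚ Qb (P.coeff i) * x ^ i
  have hsum : ∑ i ∈ P.support, term i = 0 := by
    have h := minpoly.aeval ℚ x
    rw [Polynomial.aeval_def, Polynomial.eval₂_eq_sum, Polynomial.sum_def] at h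
    exact h
  obtain ⟨i, hi, hmax⟩ := P.support.exists_max_image (fun j => A.valuation (term j))
    (Polynomial.support_nonempty.mpr hP)
  have hterm : ∀ j ∈ P.support, term j ≠ 0 := fun j hj =>
    mul_ne_zero ((map_ne_zero _).mpr (Polynomial.mem_support_iff.mp hj)) (pow_ne_zero _ hx)
  obtain ⟨j, hj, hji, hjeq⟩ :
      ∃ j ∈ P.support, j ≠ i ∧ A.valuation (term j) = A.valuation (term i) := by
    by_contra hcon
    push Not at hcon
    have hlt : ∀ j ∈ P.support \ {i}, A.valuation (term j) < A.valuation (term i) := fun j hj => by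
      rw [Finset.mem_sdiff, Finset.mem_singleton] at hj
      exact lt_of_le_of_ne (hmax j hj.1) (hcon j hj.1 hj.2)
    have h := Valuation.map_sum_eq_of_lt A.valuation hi hlt
    rw [hsum, map_zero] at h
    exact (Valuation.ne_zero_iff _).mpr (hterm i hi) h.symm
  obtain ⟨fi, hfi⟩ := hrat _ (Polynomial.mem_support_iff.mp hi)
  obtain ⟨fj, hfj⟩ := hrat _ (Polynomial.mem_support_iff.mp hj)
  have hvx : A.valuation x ≠ 0 := (Valuation.ne_zero_iff _).mpr hx
  have key : ∀ a b : ℕ, ∀ fa fb : ℤ, a < b →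
      A.valuation (q : Qb) ^ fa * A.valuation x ^ a = A.valuation (q : Qb) ^ fb * A.valuation x ^ b →
      ∃ (e : ℕ) (f : ℤ), 0 < e ∧ A.valuation x ^ e = A.valuation (q : Qb) ^ f := by
    intro a b fa fb hab h
    refine ⟨b - a, fa - fb, by omega, ?_⟩
    rw [← Nat.add_sub_cancel' hab.le, pow_add, ← mul_assoc,
      mul_comm (A.valuation (q : Qb) ^ fb) (A.valuation x ^ a), mul_assoc,
      mul_comm (A.valuation (q : Qb) ^ fa) (A.valuation x ^ a)] at h
    rw [zpow_sub₀ hq0, eq_div_iff (zpow_ne_zero _ hq0), mul_comm]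
    exact (mul_left_cancel₀ (pow_ne_zero _ hvx) h).symm
  simp only [term, map_mul, map_pow, hfi, hfj] at hjeq
  rcases lt_or_gt_of_ne hji with h | h
  · exact key _ _ _ _ h hjeq
  · exact key _ _ _ _ h hjeq.symm

/-- Finitely many values lie in one cyclic group of values. -/
theorem exists_common_generator {q : ℕ} (hq : q.Prime) (hA : A.LiesOverPrime q)
    (S : IntermediateField ℚ Qb) (s : Finset Qb) (hs : ∀ x ∈ s, x ∈ S ∧ x ≠ 0) :
    ∃ z ∈ S, z ≠ 0 ∧ ∀ x ∈ s, ∃ m : ℤ, A.valuation x = A.valuation z ^ m := by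
  classical
  induction s using Finset.induction with
  | empty => exact ⟨1, S.one_mem, one_ne_zero, by simp⟩
  | insert x s hxs ih =>
    obtain ⟨z, hzS, hz0, hz⟩ := ih fun y hy => hs y (Finset.mem_insert_of_mem hy)
    obtain ⟨hxS, hx0⟩ := hs x (Finset.mem_insert_self x s)
    obtain ⟨e, f, he, hf⟩ := exists_valuation_pow_eq hq hA hx0
    obtain ⟨e', g, he', hg⟩ := exists_valuation_pow_eq hq hA hz0
    set Q := A.valuation (q : Qb) with hQ
    have hQ0 : Q ≠ 0 := (Valuation.ne_zero_iff _).mpr (Nat.cast_ne_zero.mpr hq.ne_zero)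
    have hX : A.valuation x ^ (e * e') = Q ^ (f * (e' : ℤ)) := by
      rw [pow_mul, hf, ← zpow_natCast, ← zpow_mul]
    have hZ : A.valuation z ^ (e * e') = Q ^ (g * (e : ℤ)) := by
      rw [mul_comm e e', pow_mul, hg, ← zpow_natCast, ← zpow_mul]
    set F : ℤ := f * (e' : ℤ)
    set G : ℤ := g * (e : ℤ)
    set w := x ^ Int.gcdA F G * z ^ Int.gcdB F G with hw
    have hw0 : w ≠ 0 := mul_ne_zero (zpow_ne_zero _ hx0) (zpow_ne_zero _ hz0)
    have hW : A.valuation w ^ (e * e') = Q ^ (Int.gcd F G : ℤ) := by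
      rw [hw, map_mul, map_zpow₀, map_zpow₀, mul_pow, ← zpow_natCast, ← zpow_natCast,
        ← zpow_mul, ← zpow_mul, mul_comm (Int.gcdA F G), mul_comm (Int.gcdB F G), zpow_mul,
        zpow_mul, zpow_natCast, zpow_natCast, hX, hZ, ← zpow_mul, ← zpow_mul, ← zpow_add₀ hQ0,
        ← Int.gcd_eq_gcd_ab]
    have hmul : ∀ (y : Qb) (n : ℤ), (Int.gcd F G : ℤ) ∣ n →
        A.valuation y ^ (e * e') = Q ^ n → ∃ m : ℤ, A.valuation y = A.valuation w ^ m := by
      rintro y n ⟨m, rfl⟩ hy
      refine ⟨m, eq_of_pow_eq (Nat.mul_pos he he') ?_⟩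
      rw [hy, zpow_mul, ← hW, ← zpow_natCast, ← zpow_natCast, ← zpow_mul, ← zpow_mul, mul_comm]
    obtain ⟨mz, hmz⟩ := hmul z G (Int.gcd_dvd_right F G) hZ
    refine ⟨w, S.mul_mem (zpow_mem hxS _) (zpow_mem hzS _), hw0, fun y hy => ?_⟩
    rcases Finset.mem_insert.mp hy with rfl | hy
    · exact hmul y F (Int.gcd_dvd_left F G) hX
    · obtain ⟨m, hm⟩ := hz y hy
      exact ⟨mz * m, by rw [hm, hmz, zpow_mul]⟩

/-- The image of inertia is cyclic and Frobenius acts on it by the `q`-th power, if it is an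
`l`-group with `l ≠ q`. -/
theorem exists_inertia_generator {H : Type*} [Group H] (φ : Γ →* H)
    (L : IntermediateField ℚ Qb) [FiniteDimensional ℚ L]
    (hφ : ∀ σ : Γ, (∀ x ∈ L, σ x = x) → φ σ = 1) {q : ℕ} (hq : q.Prime)
    (A : ValuationSubring Qb) (hA : A.LiesOverPrime q) {l : ℕ} (hl : l.Prime) (hlq : l ≠ q)
    (hI : ∀ i ∈ A.inertiaSubgroupIn ℚ, ∃ k : ℕ, φ i ^ l ^ k = 1) :
    ∃ i₀ ∈ A.inertiaSubgroupIn ℚ,
      (∀ i ∈ A.inertiaSubgroupIn ℚ, φ i ∈ Subgroup.zpowers (φ i₀)) ∧
      ∀ F : Γ, A.IsFrobeniusAt F q → ∀ i ∈ A.inertiaSubgroupIn ℚ,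
        φ (F * i * F⁻¹) = φ i ^ q := by
  classical
  haveI := normal_Qbar
  haveI := isGalois_Qbar
  set S : IntermediateField ℚ Qb := IntermediateField.normalClosure ℚ L Qb
  haveI : FiniteDimensional ℚ S := inferInstance
  haveI : Normal ℚ S := normalClosure.normal ℚ L Qb
  have hLS : L ≤ S := IntermediateField.le_normalClosure L
  have hstab : ∀ (g : Γ) (y : Qb), y ∈ S → g y ∈ S := fun g y hy => by
    show g (algebraMap S Qb ⟨y, hy⟩) ∈ S
    rw [← g.restrictNormal_commutes S ⟨y, hy⟩]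
    exact (g.restrictNormal S ⟨y, hy⟩).2
  set I := A.inertiaSubgroupIn ℚ
  have hID : ∀ i ∈ I, i ∈ A.decompositionSubgroup ℚ := fun i hi =>
    inertiaSubgroupIn_le_decomposition hi
  -- wild elements die
  have hwild : ∀ i (hi : i ∈ I), (∀ y ∈ S, y ≠ 0 → theta (hID i hi) y = 1) → φ i = 1 := by
    intro i hi h1
    obtain ⟨α, hα⟩ := Field.exists_primitive_element ℚ S
    obtain ⟨k, hk⟩ := exists_pow_prime_apply_eq hq hA (hID i hi) S (fun y => hstab i y)
      (fun y hy hy0 => (theta_eq_one_iff (hID i hi) hy0).mp (h1 y hy hy0)) α.2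
    have hfix : ∀ x ∈ L, (i ^ q ^ k) x = x := by
      intro x hx
      have hmem : (⟨x, hLS hx⟩ : S) ∈ IntermediateField.adjoin ℚ ({α} : Set S) :=
        hα.symm ▸ IntermediateField.mem_top
      suffices h : ∀ y ∈ IntermediateField.adjoin ℚ ({α} : Set S),
          (i ^ q ^ k) (y : Qb) = (y : Qb) from h _ hmem
      intro y hy
      induction hy using IntermediateField.adjoin_induction with
      | mem y hy =>
        rw [Set.mem_singleton_iff] at hy
        rw [hy]
        exact hk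
      | algebraMap c => exact (i ^ q ^ k).commutes c
      | add a b _ _ ha hb => push_cast; rw [map_add, ha, hb]
      | inv a _ ha => push_cast; rw [map_inv₀, ha]
      | mul a b _ _ ha hb => push_cast; rw [map_mul, ha, hb]
    obtain ⟨a, ha⟩ := hI i hi
    refine orderOf_eq_one_iff.mp (Nat.eq_one_of_dvd_coprimes
      (Nat.Coprime.pow a k ((Nat.coprime_primes hl hq).mpr hlq)) ?_ ?_)
    · exact orderOf_dvd_of_pow_eq_one ha
    · exact orderOf_dvd_of_pow_eq_one (by rw [← map_pow]; exact hφ _ hfix)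
  -- witnesses
  haveI : Finite (S ≃ₐ[ℚ] S) := inferInstance
  have hwit : ∀ g : S ≃ₐ[ℚ] S, ∃ y : Qb, y ∈ S ∧ y ≠ 0 ∧ ∀ i (hi : i ∈ I),
      AlgEquiv.restrictNormal i S = g → φ i ≠ 1 → theta (hID i hi) y ≠ 1 := by
    intro g
    by_cases h : ∃ i, i ∈ I ∧ AlgEquiv.restrictNormal i S = g ∧ φ i ≠ 1
    · obtain ⟨i, hi, hig, hne⟩ := h
      by_contra hcon
      push Not at hcon
      refine hne (hwild i hi fun y hy hy0 => ?_)
      obtain ⟨i', hi', hig', -, hth⟩ := hcon y hy hy0
      have heq : i y = i' y := by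
        have h1 := i.restrictNormal_commutes S ⟨y, hy⟩
        have h2 := i'.restrictNormal_commutes S ⟨y, hy⟩
        rw [hig] at h1
        rw [hig'] at h2
        exact h1.symm.trans h2
      rw [← hth]
      simp only [theta, heq]
    · push Not at h
      exact ⟨1, S.one_mem, one_ne_zero, fun i hi hig hne => absurd (h i hi hig) hne⟩
  choose wit hwitS hwit0 hwit using hwit
  haveI : Fintype (S ≃ₐ[ℚ] S) := Fintype.ofFinite _
  obtain ⟨z, hzS, hz0, hz⟩ := exists_common_generator hq hA S (Finset.univ.image wit) (by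
    intro x hx
    obtain ⟨g, -, rfl⟩ := Finset.mem_image.mp hx
    exact ⟨hwitS g, hwit0 g⟩)
  -- the tame character at `z`
  let Θ : I →* (IsLocalRing.ResidueField A)ˣ :=
    { toFun := fun i => Units.mk0 (theta (hID i i.2) z) (theta_ne_zero _ hz0)
      map_one' := by
        ext
        simp only [Units.val_mk0, Units.val_one]
        rw [theta_eq_one_iff _ hz0]
        simpa using zero_lt_iff.mpr ((Valuation.ne_zero_iff A.valuation).mpr hz0)
      map_mul' := fun i j => by
        ext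
        simp only [Units.val_mk0, Units.val_mul]
        rw [← theta_eq_of_valuation_eq i.2 hz0 (valuation_map (hID j j.2) z), theta, theta, theta,
          ← map_mul]
        congr 1
        ext
        push_cast
        rw [AlgEquiv.mul_apply, div_mul_div_cancel₀ ((map_ne_zero _).mpr hz0)] }
  have hker : ∀ i : I, Θ i = 1 → φ i = 1 := by
    intro i hi
    by_contra hne
    set g := AlgEquiv.restrictNormal (i : Γ) S
    obtain ⟨m, hm⟩ := hz (wit g) (Finset.mem_image.mpr ⟨g, Finset.mem_univ _, rfl⟩)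
    refine hwit g i i.2 rfl hne ?_
    rw [theta_eq_of_valuation_eq i.2 (zpow_ne_zero m hz0) (by rw [hm, map_zpow₀]),
      theta_zpow _ hz0]
    have : theta (hID i i.2) z = 1 := congrArg Units.val hi
    rw [this, one_zpow]
  have heq : ∀ i j : I, Θ i = Θ j → φ i = φ j := fun i j h => by
    rw [← mul_inv_eq_one, ← map_inv, ← map_mul]
    exact hker (i * j⁻¹) (by rw [map_mul, map_inv, h, mul_inv_cancel])
  haveI : Finite Θ.range := by
    refine Finite.of_surjective (fun g : {g : S ≃ₐ[ℚ] S // ∃ i : I,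
        AlgEquiv.restrictNormal (i : Γ) S = g} => (⟨Θ g.2.choose, g.2.choose, rfl⟩ : Θ.range)) ?_
    rintro ⟨_, i, rfl⟩
    refine ⟨⟨_, i, rfl⟩, Subtype.ext (Units.ext ?_)⟩
    have hex : ∃ j : I, AlgEquiv.restrictNormal (j : Γ) S = AlgEquiv.restrictNormal (i : Γ) S :=
      ⟨i, rfl⟩
    have h1 := (hex.choose : Γ).restrictNormal_commutes S ⟨z, hzS⟩
    rw [hex.choose_spec] at h1
    have h2 := h1.symm.trans ((i : Γ).restrictNormal_commutes S ⟨z, hzS⟩)
    show theta (hID _ hex.choose.2) z = theta (hID _ i.2) z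
    simp only [theta]
    congr 2
    exact congrArg (· / z) h2
  obtain ⟨⟨_, i₀, rfl⟩, hgen⟩ := IsCyclic.exists_generator (α := Θ.range)
  refine ⟨i₀, i₀.2, fun i hi => ?_, fun F hF i hi => ?_⟩
  · obtain ⟨n, hn⟩ := Subgroup.mem_zpowers_iff.mp (hgen ⟨_, ⟨i, hi⟩, rfl⟩)
    refine Subgroup.mem_zpowers_iff.mpr ⟨n, ?_⟩
    rw [← map_zpow]
    exact heq (i₀ ^ n) ⟨i, hi⟩ (by rw [map_zpow]; exact congrArg Subtype.val hn)
  · obtain ⟨hFD, hFr⟩ := isFrobeniusAt_iff.mp hF
    have hcD : F * i * F⁻¹ ∈ A.decompositionSubgroup ℚ :=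
      mul_mem (mul_mem hFD (hID i hi)) (inv_mem hFD)
    have hconj : F * i * F⁻¹ ∈ I := by
      rw [mem_inertiaSubgroupIn_iff]
      refine ⟨hcD, fun a ha => ?_⟩
      have ha' : F⁻¹ a ∈ A := (map_mem_iff_of_mem_decomposition (inv_mem hFD)).mpr ha
      have h := (mem_inertiaSubgroupIn_iff.mp hi).2 _ ha'
      have h : A.valuation (F (i (F⁻¹ a) - F⁻¹ a)) < 1 := by
        rw [valuation_map hFD]; exact h
      show A.valuation _ < 1
      rw [show (F * i * F⁻¹) a - a = F (i (F⁻¹ a) - F⁻¹ a) by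
        rw [map_sub, AlgEquiv.mul_apply, AlgEquiv.mul_apply, ← AlgEquiv.mul_apply F F⁻¹,
          mul_inv_cancel, AlgEquiv.one_apply]]
      exact h
    rw [← map_pow]
    refine heq ⟨_, hconj⟩ (⟨i, hi⟩ ^ q : I) (Units.ext ?_)
    rw [map_pow, Units.val_pow_eq_pow_val]
    show theta (hID _ hconj) z = theta (hID i hi) z ^ q
    have hu : i (F⁻¹ z) / F⁻¹ z ∈ A := map_div_self_mem (hID i hi) _
    have hth : theta (hID i hi) (F⁻¹ z) = theta (hID i hi) z :=
      theta_eq_of_valuation_eq hi hz0 (valuation_map (inv_mem hFD) z)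
    rw [← hth, theta, theta, ← map_pow, ← sub_eq_zero, ← map_sub,
      ← coe_mem_nonunits_iff_residue]
    have h := hFr _ hu
    convert h using 2
    push_cast
    rw [map_div₀, ← AlgEquiv.mul_apply F F⁻¹, mul_inv_cancel, AlgEquiv.one_apply,
      AlgEquiv.mul_apply, AlgEquiv.mul_apply]

end FLTAgent.Mazur.Tame
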